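import Fermat.Agent.BR.GMid.Interface
import Fermat.Agent.BR.GDescent
import Fermat.Agent.INJ.Inst.Fricke

/-!
# BR / GMid : `Stmt_GNorm → Stmt_GA → F.Stmt_G`
-/

set_option autoImplicit false
set_option synthInstance.maxHeartbeats 400000

noncomputable section

namespace Fermat.Agent.BR.GMid

open AlgebraicCurve ModularCurve IntermediateField
open Fermat.Agent Fermat.Agent.INJ Fermat.Agent.INJ.Inst Fermat.Agent.BR.Inst

/-- helper22's `F.IsAL` implies helper80's `Inst.IsAL`. -/
theorem isAL_of_isAL {M r : ℕ} [NeZero (M * r)] (hr : r.Prime)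
    {w : FL (M * r) ≃ₐ[Qb] FL (M * r)} (hw : F.IsAL (M * r) r w) : Inst.IsAL M r w := by
  intro d e hd he x y hx hy
  have hM0 : M ≠ 0 := fun h => NeZero.ne (M * r) (by rw [h, zero_mul])
  have hd0 : d ≠ 0 := by
    rintro rfl
    exact hM0 (Nat.eq_zero_of_zero_dvd hd)
  have : NeZero d := ⟨hd0⟩
  have : NeZero (d * r) := ⟨mul_ne_zero hd0 hr.ne_zero⟩
  have hdN : d ∣ M * r := hd.trans (Dvd.intro r rfl)
  have hdrN : d * r ∣ M * r := Nat.mul_dvd_mul_right hd r
  obtain ⟨h1, h2⟩ := hw d (d * r) hdN hdrN rfl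
  rcases (Nat.dvd_prime hr).1 he with rfl | rfl
  · have hx' : x = S24.jBar (M * r) d hdN := by
      apply Subtype.ext
      rw [hx, mul_one, fricke_coe_jBar]
    have hy' : y = S24.jBar (M * r) (d * r) hdrN := by
      apply Subtype.ext
      rw [hy, Nat.div_one, fricke_coe_jBar]
    rw [hx', hy', h1]
  · have hx' : x = S24.jBar (M * e) (d * e) hdrN := by
      apply Subtype.ext
      rw [hx, fricke_coe_jBar]
    have hy' : y = S24.jBar (M * e) d hdN := by
      apply Subtype.ext
      rw [hy, Nat.div_self hr.pos, mul_one, fricke_coe_jBar]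
    rw [hx', hy', h2]

/-- Theorem G at the levels divisible by an auxiliary prime, in helper20's form. -/
theorem stmt_GA_of_GNorm (h : Stmt_GNorm) : BR.Stmt_GA := by
  intro N _ r a hr hrN hr2 ha har haN w hw A hA m hm u hdiv hcong hclass
  obtain ⟨M, hM⟩ := hrN
  rw [mul_comm] at hM
  subst hM
  have hrM : ¬ r ∣ M := by
    intro hd
    apply hr2
    rw [pow_two]
    exact Nat.mul_dvd_mul_right hd r
  have hap : a.Prime := by
    rcases ha with rfl | rfl
    · exact Nat.prime_two
    · exact Nat.prime_three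
  have haM : a ∣ M := by
    rcases (Nat.Prime.dvd_mul hap).1 haN with h1 | h1
    · exact h1
    · exact absurd ((Nat.prime_dvd_prime_iff_eq hap hr).1 h1) har
  exact h a M r A ⟨ha, haM, hr, hrM, hA⟩ w (isAL_of_isAL hr hw) m hm u hdiv hcong hclass

/-- the official contract `F.Stmt_G` from `Stmt_GNorm`. -/
theorem stmt_G_of_GNorm (h : Stmt_GNorm) (hEx : F.Stmt_ALExists) (hj : F.Stmt_AL_j) : F.Stmt_G :=
  BR.stmt_G_of_GA (stmt_GA_of_GNorm h) hEx hj

end Fermat.Agent.BR.GMid

end
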