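import Fermat.Agent.BR.GMid.Interface

/-!
# BR / GMid, GM-1 : multiplicative weak approximation (`Stmt_ApproxMul`)
-/

set_option autoImplicit false

namespace Fermat.Agent.BR.GMid

open Fermat.Agent Fermat.Agent.INJ

section

variable {K F k Fb : Type*} [Field K] [Field F] [Algebra K F] [Field k] [Field Fb] [Algebra k Fb]
variable {D : RedData K F k Fb}

/-- an element of norm `< 1` is divisible in `O` by a constant of norm `< 1`. -/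
theorem GM1_exists_pi {x : F} (hx0 : x ≠ 0) (hx : x ∈ D.O) (h : D.rd x = 0) :
    ∃ π : K, π ≠ 0 ∧ π ∈ D.A ∧ D.ra π = 0 ∧ x * (algebraMap K F π)⁻¹ ∈ D.O := by
  obtain ⟨a, ha0, h1, h2⟩ := D.unram x hx0
  have hA0 : algebraMap K F a ≠ 0 := (_root_.map_ne_zero _).2 ha0
  have e : algebraMap K F a⁻¹ = x * (x * algebraMap K F a)⁻¹ := by
    rw [map_inv₀]; field_simp
  have hmem : algebraMap K F a⁻¹ ∈ D.O := by rw [e]; exact mul_mem hx h2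
  have hz : D.rd (algebraMap K F a⁻¹) = 0 := by
    rw [e, RedData.rd_mul hx h2, h, zero_mul]
  have hA : a⁻¹ ∈ D.A := (D.mem_iff _).1 hmem
  refine ⟨a⁻¹, inv_ne_zero ha0, hA, ?_, ?_⟩
  · rw [RedData.rd_algebraMap hA] at hz
    exact (map_eq_zero (algebraMap k Fb)).1 hz
  · rw [map_inv₀, inv_inv]; exact h1

/-- high powers of an element of norm `< 1` kill any given element. -/
theorem GM1_small (hArch : Arch D) {x : F} (hx : x ∈ D.O) (h : D.rd x = 0) (z : F) :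
    ∃ n₀ : ℕ, ∀ n, n₀ ≤ n → x ^ n * z ∈ D.O ∧ D.rd (x ^ n * z) = 0 := by
  by_cases hx0 : x = 0
  · refine ⟨1, fun n hn => ?_⟩
    rw [hx0, zero_pow (by omega), zero_mul]
    exact ⟨D.O.zero_mem, RedData.rd_zero⟩
  by_cases hz0 : z = 0
  · refine ⟨0, fun n _ => ?_⟩
    rw [hz0, mul_zero]
    exact ⟨D.O.zero_mem, RedData.rd_zero⟩
  obtain ⟨π, hπ0, hπA, hπr, hxπ⟩ := GM1_exists_pi hx0 hx h
  obtain ⟨a, ha0, h1, -⟩ := D.unram z hz0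
  obtain ⟨n₀, hn₀⟩ := hArch π hπA hπr a ha0
  refine ⟨n₀ + 1, fun n hn => ?_⟩
  obtain ⟨j, rfl⟩ : ∃ j, n = n₀ + (j + 1) := ⟨n - n₀ - 1, by omega⟩
  have hπF : algebraMap K F π ≠ 0 := (_root_.map_ne_zero _).2 hπ0
  have haF : algebraMap K F a ≠ 0 := (_root_.map_ne_zero _).2 ha0
  have hc : π ^ (n₀ + (j + 1)) * a⁻¹ = π * (π ^ j * (π ^ n₀ * a⁻¹)) := by ring
  have hcA' : π ^ j * (π ^ n₀ * a⁻¹) ∈ D.A := mul_mem (pow_mem hπA j) hn₀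
  have hcA : π ^ (n₀ + (j + 1)) * a⁻¹ ∈ D.A := by rw [hc]; exact mul_mem hπA hcA'
  have hcr : D.rd (algebraMap K F (π ^ (n₀ + (j + 1)) * a⁻¹)) = 0 := by
    rw [hc, map_mul, RedData.rd_mul (RedData.algebraMap_mem hπA) (RedData.algebraMap_mem hcA'),
      RedData.rd_algebraMap hπA, hπr, map_zero, zero_mul]
  have e : x ^ (n₀ + (j + 1)) * z = (x * (algebraMap K F π)⁻¹) ^ (n₀ + (j + 1)) *
      (algebraMap K F (π ^ (n₀ + (j + 1)) * a⁻¹) * (z * algebraMap K F a)) := by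
    rw [map_mul, map_pow, map_inv₀, mul_pow, inv_pow]
    field_simp
  have hm1 : (x * (algebraMap K F π)⁻¹) ^ (n₀ + (j + 1)) ∈ D.O := pow_mem hxπ _
  have hm2 : algebraMap K F (π ^ (n₀ + (j + 1)) * a⁻¹) ∈ D.O := RedData.algebraMap_mem hcA
  rw [e]
  refine ⟨mul_mem hm1 (mul_mem hm2 h1), ?_⟩
  rw [RedData.rd_mul hm1 (mul_mem hm2 h1), RedData.rd_mul hm2 h1, hcr, zero_mul, mul_zero]

end

theorem GM1_main {K F k Fb₁ Fb₂ : Type*} [Field K] [Field F] [Algebra K F] [Field k] [Field Fb₁]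
    [Algebra k Fb₁] [Field Fb₂] [Algebra k Fb₂] (D₁ : RedData K F k Fb₁) (D₂ : RedData K F k Fb₂)
    (hP : Inv.Pair D₁ D₂) (hArch : Arch D₁) (f : F) (hf : f ≠ 0) :
    ∃ h : F, h ≠ 0 ∧ D₁.rd h = 1 ∧ D₂.rd (h / f) = 1 := by
  have hArch2 : Arch D₂ := by
    intro π hπ hπr a ha
    rw [← hP.A_eq] at hπ ⊢
    exact hArch π hπ (by rw [hP.ra_eq]; exact hπr) a ha
  obtain ⟨ε, hε1, hε2, hr1, hr2⟩ := hP.sep
  have h1ε1 : 1 - ε ∈ D₁.O := sub_mem D₁.O.one_mem hε1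
  have h1ε2 : 1 - ε ∈ D₂.O := sub_mem D₂.O.one_mem hε2
  obtain ⟨n₁, hn₁⟩ := GM1_small hArch h1ε1
    (by rw [RedData.rd_sub D₁.O.one_mem hε1, RedData.rd_one, hr1, sub_self]) f
  obtain ⟨n₂, hn₂⟩ := GM1_small hArch2 hε2 hr2 f⁻¹
  obtain ⟨a1, a2⟩ := hn₁ (max n₁ n₂) (le_max_left _ _)
  obtain ⟨b1, b2⟩ := hn₂ (max n₁ n₂) (le_max_right _ _)
  obtain ⟨n, hn⟩ : ∃ n, n = max n₁ n₂ := ⟨_, rfl⟩
  rw [← hn] at a1 a2 b1 b2
  have hh : D₁.rd (ε ^ n + (1 - ε) ^ n * f) = 1 := by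
    rw [RedData.rd_add (pow_mem hε1 n) a1, a2, RedData.rd_pow hε1, hr1, one_pow, add_zero]
  refine ⟨ε ^ n + (1 - ε) ^ n * f, ?_, hh, ?_⟩
  · intro h0
    rw [h0, RedData.rd_zero] at hh
    exact zero_ne_one hh
  · have e : (ε ^ n + (1 - ε) ^ n * f) / f = ε ^ n * f⁻¹ + (1 - ε) ^ n := by
      field_simp
    rw [e, RedData.rd_add b1 (pow_mem h1ε2 n), b2, RedData.rd_pow h1ε2,
      RedData.rd_sub D₂.O.one_mem hε2, RedData.rd_one, hr2, sub_zero, one_pow, zero_add]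

theorem stmt_ApproxMul : Stmt_ApproxMul := by
  intro K F k Fb₁ Fb₂ _ _ _ _ _ _ _ _ D₁ D₂ hP hArch f hf
  exact GM1_main D₁ D₂ hP hArch f hf

end Fermat.Agent.BR.GMid
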