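import Fermat.Agent.BR.GMid.Interface

/-! # BR / GMid / GM-2 : normalisation of a class in `W_∞ ∩ W_0` (`Stmt_GNorm`). -/

set_option autoImplicit false
set_option synthInstance.maxHeartbeats 400000

noncomputable section

namespace Fermat.Agent.BR.GMid

open AlgebraicCurve ModularCurve IntermediateField Polynomial
open Fermat.Agent Fermat.Agent.INJ Fermat.Agent.INJ.Inst Fermat.Agent.BR.Inst

theorem GM2_rd_of_congOne {N : ℕ} {A : ValuationSubring Qb}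
    {L : IntermediateField (kA A) (LaurentSeries (kA A))} {D : RedData Qb (FL N) (kA A) L}
    (hD : IsGaussS N A L D) {u : FL N} (hu : ES.Mid.CongOne N A u) : D.rd u = 1 := by
  obtain ⟨y1, y2, -, -, h3, h4, h5⟩ := hu
  obtain ⟨-, h⟩ := hD.ratio u y1 y2 h5 h3
  apply Subtype.ext
  rw [h, h4, div_self h5]
  rfl

theorem GM2_isDiv_mul_pow {N m : ℕ} {u h : FL N} (hu : ES.Mid.IsDiv N m u) (hh : h ≠ 0) :
    ES.Mid.IsDiv N m (u * h ^ m) := by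
  refine ⟨mul_ne_zero hu.1 (pow_ne_zero _ hh), fun P => ?_⟩
  have h1 : P.ord (h ^ m) = (m : ℤ) * P.ord h := by
    have := P.ord_zpow h (m : ℤ)
    rwa [zpow_natCast] at this
  rw [P.ord_mul hu.1 (pow_ne_zero _ hh), h1]
  exact dvd_add (hu.2 P) (dvd_mul_right _ _)

section Abs

variable {K F k Fb : Type*} [Field K] [Field F] [Algebra K F] [Field k] [Field Fb] [Algebra k Fb]

theorem GM2_mem_of_rd_one {D : RedData K F k Fb} {x : F} (h : D.rd x = 1) : x ∈ D.O :=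
  RedData.mem_of_rd_ne_zero (by rw [h]; exact one_ne_zero)

theorem GM2_rd_mul_pow {D : RedData K F k Fb} {x y : F} (hx : D.rd x = 1) (hy : D.rd y = 1)
    (m : ℕ) : D.rd (x * y ^ m) = 1 := by
  rw [RedData.rd_mul (GM2_mem_of_rd_one hx) (pow_mem (GM2_mem_of_rd_one hy) m),
    RedData.rd_pow (GM2_mem_of_rd_one hy), hx, hy, one_pow, one_mul]

theorem GM2_alg1 (g u h u' h' : F) (m : ℕ) (hh : h ≠ 0) (hh' : h' ≠ 0)
    (hg : g ^ m = (u' * h' ^ m) * (u * h ^ m)⁻¹) : (g / (h' * h⁻¹)) ^ m = u' * u⁻¹ := by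
  rw [div_pow, hg, mul_pow, inv_pow, mul_inv]
  field_simp

theorem GM2_alg2 (g u h u' h' : F) (m R : ℕ) (hh : h ≠ 0) (hh' : h' ≠ 0)
    (hg : g ^ m = (u' * h' ^ m) * ((u * h ^ m) ^ R)⁻¹) :
    (g / (h' * (h ^ R)⁻¹)) ^ m = u' * (u ^ R)⁻¹ := by
  rw [div_pow, hg, mul_pow u, mul_pow h', inv_pow, mul_inv, ← pow_mul, ← pow_mul, mul_comm m R]
  field_simp

theorem GM2_alg3 (x y f : F) (m : ℕ) (hf : f ≠ 0) : x * y ^ m = (x * f ^ m) * (y / f) ^ m := by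
  rw [div_pow]
  field_simp

end Abs

theorem stmt_GNorm (hG : Stmt_GAux) (hA : Stmt_ApproxMul) (hB : Inst.Stmt_BasicS)
    (hAr : INJ.Inst.Stmt_ArchD) : Stmt_GNorm := by
  intro a M r _ A hctx W hW m hrm u hu hu1 hWu
  obtain ⟨L, D, hD⟩ := Inst.exists_gaussS (M * r) A
  have hN : M * r ≠ 0 := NeZero.ne _
  let s : FL (M * r) := ⟨sS M (cJ a) Qb,
    sub_mem (jd_mem_bar hN (dvd_mul_right M r)) (_root_.natCast_mem _ _)⟩
  let sr : FL (M * r) := ⟨sS (M * r) (cJ a) Qb,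
    sub_mem (jd_mem_bar hN dvd_rfl) (_root_.natCast_mem _ _)⟩
  have hGeo : Geo a M r A L D W s sr := ⟨hctx, hD, hW, rfl, rfl⟩
  obtain ⟨-, -, -, -, -, -, -, -, -, ε, hε1, hε2⟩ := hB a M r A L D W s sr hGeo
  have hPair : Inv.Pair D (twist D W) :=
    ⟨rfl, fun _ => rfl, ε, hε1.1, hε1.2, congrArg Prod.fst hε2, by
      rw [twist_rd]; exact congrArg Prod.snd hε2⟩
  have : Fact r.Prime := ⟨hctx.hr⟩
  have hArch : Arch D := hAr (M * r) r A hctx.hA L D hD.gauss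
  obtain ⟨f, hf0, hf⟩ := hWu
  obtain ⟨h, hh0, hh1, hh2⟩ := hA Qb (FL (M * r)) (kA A) L L D (twist D W) hPair hArch (W.symm f)
    (by simpa using hf0)
  rw [twist_rd, map_div₀, AlgEquiv.apply_symm_apply] at hh2
  have hv1 : D.rd (u * h ^ m) = 1 := GM2_rd_mul_pow (GM2_rd_of_congOne hD hu1) hh1 m
  have hWv : W (u * h ^ m) = (W u * f ^ m) * (W h / f) ^ m := by
    rw [map_mul, map_pow]
    exact GM2_alg3 _ _ _ _ hf0
  have hWv1 : D.rd (W (u * h ^ m)) = 1 := by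
    rw [hWv]
    exact GM2_rd_mul_pow (GM2_rd_of_congOne hD hf) hh2 m
  obtain ⟨c1, c2⟩ := hG a M r A hctx L D W hD hW m hrm (u * h ^ m) (GM2_isDiv_mul_pow hu hh0)
    hv1 hWv1
  refine ⟨fun τ hτ => ?_, fun σ hσ => ?_⟩
  · obtain ⟨g, hg⟩ := c1 τ hτ
    have h1 : ES.Mid.gal (M * r) τ h ≠ 0 := (_root_.map_ne_zero _).2 hh0
    rw [map_mul, map_pow] at hg
    exact ⟨_, GM2_alg1 g u h _ _ m hh0 h1 hg⟩
  · obtain ⟨g, hg⟩ := c2 σ hσ
    have h1 : ES.Mid.gal (M * r) σ (ES.Mid.gal (M * r) σ h) ≠ 0 :=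
      (_root_.map_ne_zero _).2 ((_root_.map_ne_zero _).2 hh0)
    rw [map_mul, map_pow, map_mul, map_pow] at hg
    exact ⟨_, GM2_alg2 g u h _ _ m (r ^ 2) hh0 h1 hg⟩

end Fermat.Agent.BR.GMid

end
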