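import Fermat.Agent.BR.Inst.Interface
import Fermat.Agent.BR.Inv.Interface
import Fermat.Agent.BR.F.Interface
import Fermat.Agent.INJ.Inst.Descent

/-!
# BR / GMid : from Theorem G at the levels `M * r` with an auxiliary level (`Stmt_GAux`, delivered by
`BR/Inst` + `BR/Inv`) to the contract `BR.F.Stmt_G` of the packages [F] / [GLUE].

Steps: (1) multiplicative weak approximation (abstract), (2) normalisation of a class in
`W = W_∞ ∩ W_0` to a representative which is `≡ 1` at both valuations, (3) raising the level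
`N → N * a`, `a ∈ {2, 3}`, `a ≠ r`, and norm descent.
-/

set_option autoImplicit false
set_option synthInstance.maxHeartbeats 400000

noncomputable section

namespace Fermat.Agent.BR.GMid

open AlgebraicCurve ModularCurve IntermediateField Polynomial
open Fermat.Agent Fermat.Agent.INJ Fermat.Agent.INJ.Inst Fermat.Agent.BR.Inst

/-- **Theorem G at the levels `M * r`, `a ∣ M`**, for functions which are `≡ 1` at both valuations
(deliverable of `BR/Inst` + `BR/Inv`). -/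
def Stmt_GAux : Prop :=
  ∀ (a M r : ℕ) [NeZero (M * r)] (A : ValuationSubring Qb), Ctx a M r A →
    ∀ (L : IntermediateField (kA A) (LaurentSeries (kA A)))
      (D : RedData Qb (FL (M * r)) (kA A) L) (W : FL (M * r) ≃ₐ[Qb] FL (M * r)),
      IsGaussS (M * r) A L D → Inst.IsAL M r W →
    ∀ m : ℕ, ¬ r ∣ m → ∀ v : FL (M * r), ES.Mid.IsDiv (M * r) m v → D.rd v = 1 → D.rd (W v) = 1 →
      (∀ τ ∈ A.inertiaSubgroupIn ℚ, ∃ g : FL (M * r), g ^ m = ES.Mid.gal (M * r) τ v * v⁻¹) ∧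
      (∀ σ : ES.Mid.GQ, A.IsFrobeniusAt σ r → ∃ g : FL (M * r),
        g ^ m = ES.Mid.gal (M * r) σ (ES.Mid.gal (M * r) σ v) * (v ^ (r ^ 2))⁻¹)

/-- (1) multiplicative weak approximation for two independent rank one valuations. -/
def Stmt_ApproxMul : Prop :=
  ∀ (K F k Fb₁ Fb₂ : Type) [Field K] [Field F] [Algebra K F] [Field k] [Field Fb₁] [Algebra k Fb₁]
    [Field Fb₂] [Algebra k Fb₂] (D₁ : RedData K F k Fb₁) (D₂ : RedData K F k Fb₂),
    Inv.Pair D₁ D₂ → Arch D₁ →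
    ∀ f : F, f ≠ 0 → ∃ h : F, h ≠ 0 ∧ D₁.rd h = 1 ∧ D₂.rd (h / f) = 1

/-- (2) Theorem G at the levels `M * r`, `a ∣ M`, for classes in `W_∞ ∩ W_0`. -/
def Stmt_GNorm : Prop :=
  ∀ (a M r : ℕ) [NeZero (M * r)] (A : ValuationSubring Qb), Ctx a M r A →
    ∀ W : FL (M * r) ≃ₐ[Qb] FL (M * r), Inst.IsAL M r W →
    ∀ m : ℕ, ¬ r ∣ m → ∀ u : FL (M * r), ES.Mid.IsDiv (M * r) m u → ES.Mid.CongOne (M * r) A u →
      F.ClassCong (M * r) m A (W u) →
      (∀ τ ∈ A.inertiaSubgroupIn ℚ, ∃ g : FL (M * r), g ^ m = ES.Mid.gal (M * r) τ u * u⁻¹) ∧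
      (∀ σ : ES.Mid.GQ, A.IsFrobeniusAt σ r → ∃ g : FL (M * r),
        g ^ m = ES.Mid.gal (M * r) σ (ES.Mid.gal (M * r) σ u) * (u ^ (r ^ 2))⁻¹)

/-- (3a) compatibilities of the inclusion `FL N ⊆ FL N'`, `N ∣ N'`. -/
def Stmt_Raise : Prop :=
  ∀ (N N' : ℕ) [NeZero N] [NeZero N'], N ∣ N' →
    ∀ (u : FL N) (u' : FL N'), (u' : LaurentSeries Qb) = (u : LaurentSeries Qb) →
      (∀ m : ℕ, ES.Mid.IsDiv N m u → ES.Mid.IsDiv N' m u') ∧
      (∀ A : ValuationSubring Qb, ES.Mid.CongOne N A u → ES.Mid.CongOne N' A u') ∧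
      (∀ σ : ES.Mid.GQ, ((ES.Mid.gal N' σ u' : FL N') : LaurentSeries Qb) =
        ((ES.Mid.gal N σ u : FL N) : LaurentSeries Qb))

/-- (3b) the Atkin-Lehner involution at level `M a r` restricts to the one at level `M r`. -/
def Stmt_RaiseAL : Prop :=
  ∀ (N r a : ℕ) [NeZero N] [NeZero (N / r * a * r)], r.Prime → r ∣ N → ¬ r ^ 2 ∣ N →
    ∀ (w : FL N ≃ₐ[Qb] FL N) (W : FL (N / r * a * r) ≃ₐ[Qb] FL (N / r * a * r)),
      F.IsAL N r w → Inst.IsAL (N / r * a) r W →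
    ∀ (u : FL N) (u' : FL (N / r * a * r)), (u' : LaurentSeries Qb) = (u : LaurentSeries Qb) →
      ((W u' : FL (N / r * a * r)) : LaurentSeries Qb) = ((w u : FL N) : LaurentSeries Qb)

end Fermat.Agent.BR.GMid

end
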